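import Fermat.Agent.CAR.FQ2C.Lvl2
import Fermat.Agent.CAR.ON.Basis
import Fermat.Agent.CAR.ON.ResMd
import Fermat.Agent.GAL.KLC.Main

/-!
# CAR / FQ2C / Main : everything of [FQ2-ON] at the concrete level `F = FN (M' * q * q)`

For `M'` admissible, `q ∤ M'` prime, `A` over `q`, `ζ` a primitive `q`-th root of unity:
`xDatC`, `tC`, `setupC`, `exists_basisC`, `approx3C`, `res_ooC`, `res_zrC`, `res_mdC`.
-/

set_option autoImplicit false

open ModularCurve AlgebraicCurve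

noncomputable section

namespace Fermat.Agent.CAR.FQ2C

open Fermat.Agent.GR Fermat.Agent.GAL Fermat.Agent.GAL.KL Fermat.Agent.GAL.KLC Fermat.Agent.S24
open Fermat.Agent.S28 Fermat.Agent.GR.HeckeField Fermat.Agent.TOR Fermat.Agent.TOR.GB
open Fermat.Agent.CAR.FQ2V Fermat.Agent.CAR.FQ2E Fermat.Agent.CAR.ON Fermat.Agent.CAR.KLm

variable {M' q : ℕ} [NeZero M'] [NeZero q] (A : ValuationSubring Qb) (ζ : Qbˣ)

/-- the functions `x`, `x'` of level `M'`. -/
theorem xDatC (hM : AdmLevel M') (hq : q.Prime) (hqM : ¬ q ∣ M') (hA : A.LiesOverPrime q) :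
    T1.XDat Qb (rho A M') (xF M') (xF' M') (xR (kA A) M') (xR' (kA A) M') (mX M') q :=
  T1C.xDat M' q hq A hA (spansStatement M') (riStatement M') (ctStatement M' q hM hq hqM A hA)

/-- the parameter `t = x(Q) x(Q^{q²})`. -/
def tC (M' q : ℕ) [NeZero M'] [NeZero q] : FN (M' * q * q) := T1.tt (al M' q) (ga M' q) (xF M')

theorem tC_eq : tC M' q = al M' q (xF M') * ga M' q (xF M') := rfl

section

variable (hM : AdmLevel M') (hq : q.Prime) (hqM : ¬ q ∣ M') (hA : A.LiesOverPrime q)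
  (hζ : IsPrimitiveRoot ζ q)
include hM hq hqM hA hζ

theorem setupC : Setup Qb (vC M' q A ζ) (tC M' q) :=
  setup (lvl2 A ζ hq hqM hA hζ) (xDatC A hM hq hqM hA)

theorem transcendental_tC : Transcendental Qb (tC M' q) :=
  transcendental_tt (lvl2 A ζ hq hqM hA hζ) (xDatC A hM hq hqM hA)

theorem rd_tC_oo : T1.Rd (rhoC M' q A ζ oo) (tC M' q) (xR (kA A) M' ^ (q * q + 1)) :=
  rd_tt_oo (lvl2 A ζ hq hqM hA hζ) (xDatC A hM hq hqM hA)

theorem rd_tC_zr : T1.Rd (rhoC M' q A ζ zr) (tC M' q) (xR (kA A) M' ^ (q * q + 1)) :=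
  rd_tt_zr (lvl2 A ζ hq hqM hA hζ) (xDatC A hM hq hqM hA)

theorem rd_tC_md (c : (ZMod q)ˣ) :
    T1.Rd (rhoC M' q A ζ (md c)) (tC M' q) (xR (kA A) M' ^ (1 + 1)) :=
  rd_tt_md (lvl2 A ζ hq hqM hA hζ) (xDatC A hM hq hqM hA) c

/-- **the orthonormal basis** (input of `KLm.pow_of_near_one`). -/
theorem exists_basisC :
    ∃ Em : FN (M' * q * q),
      Idem (vC M' q A ζ) (delC M' q ζ (a0C M' q)) (q - 1)
        (epsOo (al M' q) (be M' q) (ga M' q) q (xF M'))
        (epsZr (al M' q) (be M' q) (ga M' q) q (xF M')) Em ∧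
      ONm Qb (vC M' q A ζ) oo (tC M' q)
        (bas (al M' q) (ga M' q) (xF M') (xF' M') (mX M') q (delC M' q ζ (a0C M' q))
          (epsOo (al M' q) (be M' q) (ga M' q) q (xF M'))
          (epsZr (al M' q) (be M' q) (ga M' q) q (xF M')) Em) ∧
      Spans Qb (tC M' q)
        (bas (al M' q) (ga M' q) (xF M') (xF' M') (mX M') q (delC M' q ζ (a0C M' q))
          (epsOo (al M' q) (be M' q) (ga M' q) q (xF M'))
          (epsZr (al M' q) (be M' q) (ga M' q) q (xF M')) Em) :=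
  exists_basis (lvl2 A ζ hq hqM hA hζ) (xDatC A hM hq hqM hA) hq.two_le (arch_C A ζ hq hA)
    (delStd A ζ hq hqM hA hζ) (card_units hq).ge (finrankAlong_al hq hqM) (finrankAlong_ga hq hqM)

/-- **weak approximation with three targets.** -/
theorem approx3C (go gm gz : FN (M' * q * q)) {γ₀ : ΓU A} (hγ : γ₀ ≠ 0) :
    ∃ G : FN (M' * q * q), vC M' q A ζ oo (G - go) < γ₀ ∧
      (∀ c, vC M' q A ζ (md c) (G - gm) < γ₀) ∧ vC M' q A ζ zr (G - gz) < γ₀ :=
  approx3 (lvl2 A ζ hq hqM hA hζ) (xDatC A hM hq hqM hA) hq.two_le (arch_C A ζ hq hA) go gm gz hγ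

/-- the residue field at `∞` is that of level `M'`. -/
theorem res_ooC {z : FN (M' * q * q)} {φ : LaurentSeries (kA A)}
    (h : T1.Rd (rhoC M' q A ζ oo) z φ) : ∃ c, T1.Rd (rho A M') c φ :=
  res_oo (lvl2 A ζ hq hqM hA hζ) (xDatC A hM hq hqM hA) hq.two_le (arch_C A ζ hq hA)
    (delStd A ζ hq hqM hA hζ) (card_units hq).ge (finrankAlong_al hq hqM) (finrankAlong_ga hq hqM) h

/-- the residue field at `0` is that of level `M'`. -/
theorem res_zrC {z : FN (M' * q * q)} {φ : LaurentSeries (kA A)}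
    (h : T1.Rd (rhoC M' q A ζ zr) z φ) : ∃ c, T1.Rd (rho A M') c φ :=
  res_zr (lvl2 A ζ hq hqM hA hζ) (xDatC A hM hq hqM hA) hq.two_le (arch_C A ζ hq hA)
    (delStd A ζ hq hqM hA hζ) (card_units hq).ge (finrankAlong_al hq hqM) (finrankAlong_ga hq hqM) h

/-- elements with the same reduction at all middle cusps reduce into the residue field of
level `M'`. -/
theorem res_mdC {z : FN (M' * q * q)} {φ : LaurentSeries (kA A)}
    (h : ∀ c, T1.Rd (rhoC M' q A ζ (md c)) z φ) : ∃ c, T1.Rd (rho A M') c φ :=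
  res_md (lvl2 A ζ hq hqM hA hζ) (xDatC A hM hq hqM hA) hq.two_le (arch_C A ζ hq hA)
    (delStd A ζ hq hqM hA hζ) (card_units hq).ge (finrankAlong_al hq hqM) (finrankAlong_ga hq hqM) h

end

end Fermat.Agent.CAR.FQ2C
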