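import Fermat.Agent.CAR.FQ2V.Fam
import Fermat.Agent.CAR.FQ2E.Idx
import Fermat.Agent.CAR.ON.Defs
import Fermat.Agent.TOR.T1C.Lvl

/-!
# CAR / FQ2C / Fam : the concrete `(q+1)`-family of Gauss valuations on `F = FN (M' * q * q)`

* `eMidG M' q ξ : GEmb F` : the expansion at a middle cusp as an embedding into `GField`;
* `famC M' q ζ : Idx q → GEmb F` : `∞ ↦ coe`, `0 ↦ coe ∘ w_{q²}`, `mid c ↦ eMidC ζ c`;
* `vC M' q A ζ`, `rhoC M' q A ζ` : the valuations (value group `ΓU A`) and the reduction maps;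
* `al`, `be`, `ga : FN M' →ₐ[ℚ̄] F` : `x(Q)`, `x(Q^q)`, `x(Q^{q²})`;
* `rd_oo_iff`, `rd_zr_iff`, `rd_md_iff` : the dictionary with `GR.HasRed`;
* `vOf_eq_of_hasRed` : a criterion for the equality of two Gauss valuations.
-/

set_option autoImplicit false

open ModularCurve AlgebraicCurve

noncomputable section

namespace Fermat.Agent.CAR.FQ2C

open Fermat.Agent.GR Fermat.Agent.GAL Fermat.Agent.GAL.KL Fermat.Agent.GAL.KLC Fermat.Agent.S24
open Fermat.Agent.S28 Fermat.Agent.GR.HeckeField Fermat.Agent.TOR Fermat.Agent.TOR.GB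
open Fermat.Agent.CAR.FQ2V Fermat.Agent.CAR.FQ2E Fermat.Agent.CAR.ON

variable (M' q : ℕ) [NeZero M'] [NeZero q]

theorem coe_mem_GField (N : ℕ) (z : FN N) : (z : LaurentSeries Qb) ∈ GField Qb := (eStd N).mem z

/-- the middle expansions take their values in `GField`. -/
theorem eMid_mem_GField (ξ : Qbˣ) (z : FN (M' * q * q)) : eMid M' q ξ z ∈ GField Qb := by
  by_cases h : (q.Prime ∧ ¬ q ∣ M') ∧ (ξ ^ q = 1 ∧ ξ ≠ 1)
  · obtain ⟨⟨hq, hqM⟩, hξ, hξ1⟩ := h
    have hc : ∀ a : Qb, eMid M' q ξ (algebraMap Qb (FN (M' * q * q)) a) = HahnSeries.C a := by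
      intro a
      rw [eMid_algebraMap]
      exact algebraMap_eq_C a
    refine (GEmb.ofGen (genX (M' * q) q) (genX_generates (M' * q) q hq) (eMid M' q ξ) hc ?_).mem z
    rintro ⟨p, _ | _⟩
    · show eMid M' q ξ (alp (M' * q) q (Fermat.Agent.S18.frickeX (M' * q) p)) ∈ _
      rw [eMid_alp]
      exact coe_mem_GField _ _
    · show eMid M' q ξ (bet (M' * q) q (Fermat.Agent.S18.frickeX (M' * q) p)) ∈ _
      rw [eMid_bet hq hqM hξ hξ1]
      exact twist_mem_GField ξ hq.ne_zero hξ (coe_mem_GField _ _)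
  · rw [eMid, dif_neg h]
    exact coe_mem_GField _ z

/-- the expansion at a middle cusp, as an embedding into `GField`. -/
def eMidG (ξ : Qbˣ) : GEmb (FN (M' * q * q)) where
  hom := eMid M' q ξ
  const a := by
    rw [eMid_algebraMap]
    exact algebraMap_eq_C a
  mem := eMid_mem_GField M' q ξ

@[simp] theorem eMidG_hom_apply (ξ : Qbˣ) (z : FN (M' * q * q)) :
    (eMidG M' q ξ).hom z = eMid M' q ξ z := rfl

/-- **the family of embeddings.** -/
def famC (ζ : Qbˣ) : FQ2V.Idx q → GEmb (FN (M' * q * q)) :=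
  fam (eStd (M' * q * q)) (wqq M' q) (fun c => eMidG M' q (zpw q ζ c))

/-- **the family of valuations.** -/
def vC (A : ValuationSubring Qb) (ζ : Qbˣ) : FQ2V.Idx q → Valuation (FN (M' * q * q)) (ΓU A) :=
  vFam A (famC M' q ζ)

/-- **the reduction maps.** -/
def rhoC (A : ValuationSubring Qb) (ζ : Qbˣ) (i : FQ2V.Idx q) :
    (vC M' q A ζ i).integer →+* LaurentSeries (kA A) :=
  rhoFam A (famC M' q ζ) i

/-- `x(Q)`. -/
def al : FN M' →ₐ[Qb] FN (M' * q * q) := (alp (M' * q) q).comp (alp M' q)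

/-- `x(Q^q)`. -/
def be : FN M' →ₐ[Qb] FN (M' * q * q) := (alp (M' * q) q).comp (bet M' q)

/-- `x(Q^{q²})`. -/
def ga : FN M' →ₐ[Qb] FN (M' * q * q) := (bet (M' * q) q).comp (bet M' q)

variable {M' q}

@[simp] theorem al_apply (x : FN M') : al M' q x = alp (M' * q) q (alp M' q x) := rfl

@[simp] theorem be_apply (x : FN M') : be M' q x = alp (M' * q) q (bet M' q x) := rfl

@[simp] theorem ga_apply (x : FN M') : ga M' q x = bet (M' * q) q (bet M' q x) := rfl

theorem be_apply' (x : FN M') : be M' q x = bet (M' * q) q (alp M' q x) := (bet_alp M' q x).symm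

variable (A : ValuationSubring Qb) (ζ : Qbˣ)

/-! ## the dictionary -/

theorem famC_oo_hom (z : FN (M' * q * q)) : (famC M' q ζ oo).hom z = (z : LaurentSeries Qb) := rfl

theorem famC_zr_hom (z : FN (M' * q * q)) :
    (famC M' q ζ zr).hom z = ((wqq M' q z : FN (M' * q * q)) : LaurentSeries Qb) := rfl

theorem famC_md_hom (c : (ZMod q)ˣ) (z : FN (M' * q * q)) :
    (famC M' q ζ (md c)).hom z = eMidC M' q ζ c z := rfl

theorem rd_iff (i : FQ2V.Idx q) {z : FN (M' * q * q)} {φ : LaurentSeries (kA A)} :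
    T1.Rd (rhoC M' q A ζ i) z φ ↔ HasRed A ((famC M' q ζ i).hom z) φ :=
  rd_fam_iff A (famC M' q ζ) i

theorem rd_oo_iff {z : FN (M' * q * q)} {φ : LaurentSeries (kA A)} :
    T1.Rd (rhoC M' q A ζ oo) z φ ↔ HasRed A (z : LaurentSeries Qb) φ := rd_iff A ζ oo

theorem rd_zr_iff {z : FN (M' * q * q)} {φ : LaurentSeries (kA A)} :
    T1.Rd (rhoC M' q A ζ zr) z φ ↔
      HasRed A ((wqq M' q z : FN (M' * q * q)) : LaurentSeries Qb) φ := rd_iff A ζ zr

theorem rd_md_iff (c : (ZMod q)ˣ) {z : FN (M' * q * q)} {φ : LaurentSeries (kA A)} :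
    T1.Rd (rhoC M' q A ζ (md c)) z φ ↔ HasRed A (eMidC M' q ζ c z) φ := rd_iff A ζ (md c)

theorem isRed_C (i : FQ2V.Idx q) : IsRed Qb (vC M' q A ζ i) (rhoC M' q A ζ i) :=
  isRed_fam A (famC M' q ζ) i

theorem arch_C (hq : q.Prime) (hA : A.LiesOverPrime q) (i : FQ2V.Idx q) : Arch (vC M' q A ζ i) :=
  arch_fam A (famC M' q ζ) hq hA i

theorem vC_natCast (hq : q.Prime) (hA : A.LiesOverPrime q) {n : ℕ} (hn : ¬ q ∣ n)
    (i : FQ2V.Idx q) : vC M' q A ζ i (n : FN (M' * q * q)) = 1 :=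
  vFam_natCast A (famC M' q ζ) hq hA hn i

theorem vC_algebraMap (i j : FQ2V.Idx q) (a : Qb) :
    vC M' q A ζ i (algebraMap Qb (FN (M' * q * q)) a)
      = vC M' q A ζ j (algebraMap Qb (FN (M' * q * q)) a) :=
  vFam_algebraMap A (famC M' q ζ) i j a

theorem vC_apply (i : FQ2V.Idx q) (z : FN (M' * q * q)) :
    vC M' q A ζ i z = vOf A (famC M' q ζ i) z := rfl

theorem vC_zr (z : FN (M' * q * q)) : vC M' q A ζ zr z = vC M' q A ζ oo (wqq M' q z) := rfl

theorem vC_le_one_iff (i : FQ2V.Idx q) {z : FN (M' * q * q)} :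
    vC M' q A ζ i z ≤ 1 ↔ ∃ φ, HasRed A ((famC M' q ζ i).hom z) φ :=
  vFam_le_one_iff A (famC M' q ζ) i

theorem vC_lt_one_iff (i : FQ2V.Idx q) {z : FN (M' * q * q)} :
    vC M' q A ζ i z < 1 ↔ HasRed A ((famC M' q ζ i).hom z) 0 :=
  vFam_lt_one_iff A (famC M' q ζ) i

/-! ## a criterion for the equality of two Gauss valuations -/

/-- if `f : E → E'` is compatible with constants and maps elements with a nonzero reduction to
elements with a nonzero reduction, then it preserves the Gauss valuations. -/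
theorem vOf_eq_of_hasRed {E E' : Type*} [Field E] [Algebra Qb E] [Field E'] [Algebra Qb E']
    (e : GEmb E) (e' : GEmb E') (f : E →+* E')
    (hc : ∀ a : Qb, f (algebraMap Qb E a) = algebraMap Qb E' a)
    (h : ∀ (z : E) (φ : LaurentSeries (kA A)), φ ≠ 0 → HasRed A (e.hom z) φ →
      ∃ φ' : LaurentSeries (kA A), φ' ≠ 0 ∧ HasRed A (e'.hom (f z)) φ') (z : E) :
    vOf A e' (f z) = vOf A e z := by
  by_cases hz : z = 0
  · rw [hz, map_zero, map_zero, map_zero]
  have hz' : e.hom z ≠ 0 := (_root_.map_ne_zero e.hom).2 hz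
  obtain ⟨c, hc0, φ, hφ, hr⟩ := exists_hasRed_C_mul A (e.mem z) hz'
  have h1 : e.hom (algebraMap Qb E c * z) = HahnSeries.C c * e.hom z := by
    rw [map_mul, e.const]
  rw [← h1] at hr
  obtain ⟨φ', hφ', hr'⟩ := h _ φ hφ hr
  have h2 := vOf_eq_one_of_hasRed A e hr hφ
  have h3 := vOf_eq_one_of_hasRed A e' hr' hφ'
  rw [map_mul, hc, map_mul, vOf_algebraMap] at h3
  rw [map_mul, vOf_algebraMap] at h2
  have h4 : vU A (cU c) ≠ 0 := by
    intro h0
    rw [h0, zero_mul] at h2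
    exact zero_ne_one h2
  exact mul_left_cancel₀ h4 (h3.trans h2.symm)

end Fermat.Agent.CAR.FQ2C
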