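import Fermat.Agent.CAR.FQ2C.Table
import Fermat.Agent.TOR.T1C.Cusp
import Fermat.Agent.TOR.T1C.XDat
import Fermat.Agent.S18.Level.BetaDeg

/-!
# CAR / FQ2C / Lvl2 : [FQ2-C] the concrete instances of `ON.Lvl2` and `ON.Del`

* `lvl2` : `ON.Lvl2 ℚ̄ (rho A M') (vC M' q A ζ) (rhoC M' q A ζ) (al M' q) (be M' q) (ga M' q) q`;
* `delC ζ a₀ = (ga a₀ - al a₀)/(ζ - 1)`, `del` : `ON.Del` with `ψ = θ (red a₀)`, `cc c = c`;
* `a0C M' q` (`= x` or `x'`), `theta_a0R_ne_zero`;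
* `finrankAlong_al`, `finrankAlong_ga` `= q (q + 1)`; `card_units`.
-/

set_option autoImplicit false

open ModularCurve AlgebraicCurve

noncomputable section

namespace Fermat.Agent.CAR.FQ2C

open Fermat.Agent.GR Fermat.Agent.GAL Fermat.Agent.GAL.KL Fermat.Agent.GAL.KLC Fermat.Agent.S24
open Fermat.Agent.S28 Fermat.Agent.GR.HeckeField Fermat.Agent.TOR Fermat.Agent.TOR.GB
open Fermat.Agent.CAR.FQ2V Fermat.Agent.CAR.FQ2E Fermat.Agent.CAR.ON

variable {M' q : ℕ} [NeZero M'] [NeZero q] (A : ValuationSubring Qb) (ζ : Qbˣ)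

/-- **the three-level datum.** -/
theorem lvl2 (hq : q.Prime) (hqM : ¬ q ∣ M') (hA : A.LiesOverPrime q) (hζ : IsPrimitiveRoot ζ q) :
    Lvl2 Qb (rho A M') (vC M' q A ζ) (rhoC M' q A ζ) (al M' q) (be M' q) (ga M' q) q := by
  have L := T1C.lvl A M' q hq hqM
  exact
  { red₀ := isRed A M'
    red := isRed_C A ζ
    eqL := vC_algebraMap A ζ
    ooα := fun c φ h => rd_oo_a1 A ζ (L.ρα c φ h)
    ooβ := fun c φ h => rd_oo_a1 A ζ (L.ρβ c φ h)
    ooγ := fun c φ h => rd_oo_b1 A ζ (L.ρβ c φ h)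
    zrα := fun c φ h => rd_zr_a1 A ζ hq hqM (y := alp M' q c) (by rw [L.wα]; exact L.ρβ c φ h)
    zrβ := fun c φ h => rd_zr_a1 A ζ hq hqM (y := bet M' q c) (by rw [L.wβ]; exact L.ρα c φ h)
    zrγ := fun c φ h => rd_zr_b1 A ζ hq hqM (y := bet M' q c) (by rw [L.wβ]; exact L.ρα c φ h)
    mdα := fun i c φ h => rd_md_a1 A ζ i (L.ρα c φ h)
    mdβ := fun i c φ h => rd_md_a1 A ζ i (L.ρβ c φ h)
    mdγ := fun i c φ h =>
      rd_md_b1 A ζ hq hqM hA hζ i (y := bet M' q c) (by rw [L.wβ]; exact L.ρα c φ h) }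

/-! ## the element `δ` -/

/-- `δ = (a₀(Q^{q²}) - a₀(Q))/(ζ - 1)`. -/
def delC (M' q : ℕ) [NeZero M'] [NeZero q] (ζ : Qbˣ) (a₀ : FN M') : FN (M' * q * q) :=
  (ga M' q a₀ - al M' q a₀) / algebraMap Qb (FN (M' * q * q)) ((ζ : Qb) - 1)

/-- the constants `cc c = c`. -/
def ccC (q : ℕ) (A : ValuationSubring Qb) (c : (ZMod q)ˣ) : kA A := (((c : ZMod q).val : ℕ) : kA A)

theorem ccC_injective (hq : q.Prime) (hA : A.LiesOverPrime q) : Function.Injective (ccC q A) := by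
  have hchar : CharP (kA A) q := charP_residueField hq hA
  intro c c' h
  have h1 : (((c : ZMod q).val : ℕ) : kA A) = (((c' : ZMod q).val : ℕ) : kA A) := h
  rw [CharP.natCast_eq_natCast (kA A) q] at h1
  have h2 : (c : ZMod q).val = (c' : ZMod q).val := by
    have e1 := Nat.mod_eq_of_lt (ZMod.val_lt (c : ZMod q))
    have e2 := Nat.mod_eq_of_lt (ZMod.val_lt (c' : ZMod q))
    have h3 : (c : ZMod q).val % q = (c' : ZMod q).val % q := h1
    rwa [e1, e2] at h3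
  exact Units.ext (ZMod.val_injective q h2)

theorem hom_md_delC (hq : q.Prime) (hqM : ¬ q ∣ M') (hζ : IsPrimitiveRoot ζ q) (c : (ZMod q)ˣ)
    (a₀ : FN M') :
    (famC M' q ζ (md c)).hom (delC M' q ζ a₀)
      = (twist (ζ ^ (((c : ZMod q).val : ℕ) : ℤ)) (a₀ : LaurentSeries Qb) - (a₀ : LaurentSeries Qb))
          / HahnSeries.C ((ζ : Qb) - 1) := by
  rw [delC, map_div₀, map_sub, (famC M' q ζ (md c)).const, ga_apply, al_apply, hom_md_a1,
    hom_md_b1 ζ hq hqM hζ, wq_bet hq hqM, coe_heckeAlphaBar, zpw, zpow_natCast]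

theorem rd_md_delC (hq : q.Prime) (hqM : ¬ q ∣ M') (hA : A.LiesOverPrime q)
    (hζ : IsPrimitiveRoot ζ q) (c : (ZMod q)ˣ) {a₀ : FN M'} {φ : LaurentSeries (kA A)}
    (h : T1.Rd (rho A M') a₀ φ) :
    T1.Rd (rhoC M' q A ζ (md c)) (delC M' q ζ a₀) (HahnSeries.C (ccC q A c) * CT.theta φ) := by
  rw [rd_iff, hom_md_delC ζ hq hqM hζ]
  have h1 := hasRed_twist_sub_div hq hA ζ hζ.pow_eq_one (hζ.ne_one hq.one_lt)
    (((c : ZMod q).val : ℕ) : ℤ) ((T1C.rd_iff _ A).1 h)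
  rwa [Int.cast_natCast] at h1

/-- **the datum `ON.Del`.** -/
theorem del (hq : q.Prime) (hqM : ¬ q ∣ M') (hA : A.LiesOverPrime q) (hζ : IsPrimitiveRoot ζ q)
    {a₀ : FN M'} {φ : LaurentSeries (kA A)} (h : T1.Rd (rho A M') a₀ φ) (hφ : CT.theta φ ≠ 0) :
    Del (vC M' q A ζ) (rhoC M' q A ζ) (delC M' q ζ a₀) (CT.theta φ) (ccC q A) where
  inj := ccC_injective A hq hA
  ne := hφ
  rd := fun c => rd_md_delC A ζ hq hqM hA hζ c h

/-! ## the choice of `a₀` -/

/-- `θ φ ≠ 0` if the order of `φ` is prime to the characteristic. -/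
theorem theta_ne_zero_of_not_dvd {k : Type*} [Field k] (p : ℕ) [CharP k p] {φ : LaurentSeries k}
    (hφ : φ ≠ 0) (h : ¬ (p : ℤ) ∣ φ.order) : CT.theta φ ≠ 0 := by
  intro h0
  have h1 := congrArg (fun f : LaurentSeries k => f.coeff φ.order) h0
  simp only [CT.theta_coeff, HahnSeries.coeff_zero] at h1
  rcases mul_eq_zero.1 h1 with h2 | h2
  · exact h ((CharP.intCast_eq_zero_iff k p _).1 h2)
  · exact hφ (HahnSeries.coeff_order_eq_zero.1 h2)

open Classical in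
/-- `a₀ = x` if `q ∤ m`, `x'` otherwise. -/
def a0C (M' q : ℕ) [NeZero M'] : FN M' := if q ∣ mX M' then xF' M' else xF M'

open Classical in
/-- the reduction of `a₀`. -/
def a0R (M' q : ℕ) (k : Type*) [CommRing k] : LaurentSeries k :=
  if q ∣ mX M' then xR' k M' else xR k M'

omit [NeZero q] in
theorem rd_a0C : T1.Rd (rho A M') (a0C M' q) (a0R M' q (kA A)) := by
  unfold a0C a0R
  split_ifs
  · exact ⟨xF'_mem_integer M' A, rho_xF' M' A⟩
  · exact ⟨xF_mem_integer M' A, rho_xF M' A⟩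

omit [NeZero q] in
theorem theta_a0R_ne_zero (hq : q.Prime) (hA : A.LiesOverPrime q) :
    CT.theta (a0R M' q (kA A)) ≠ 0 := by
  have hchar : CharP (kA A) q := charP_residueField hq hA
  have hm := mX_pos M'
  unfold a0R
  split_ifs with h
  · refine theta_ne_zero_of_not_dvd q (T1C.coeffMap_int_ne_zero _ _ (XZ'_eq M')) ?_
    rw [order_xR']
    intro h1
    have h2 : (q : ℤ) ∣ (mX M' : ℤ) := by exact_mod_cast h
    have h3 : (q : ℤ) ∣ 1 := by
      have := dvd_add h1 h2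
      rwa [show -(mX M' : ℤ) + 1 + (mX M' : ℤ) = 1 by ring] at this
    have h4 : q ∣ 1 := by exact_mod_cast h3
    exact hq.one_lt.ne' (Nat.dvd_one.1 h4)
  · have hne : xR (kA A) M' ≠ 0 := by
      intro h0
      have := order_xR M' (kA A)
      rw [h0, HahnSeries.order_zero] at this
      omega
    refine theta_ne_zero_of_not_dvd q hne ?_
    rw [order_xR, dvd_neg]
    intro h1
    exact h (by exact_mod_cast h1)

/-- **`ON.Del` for the standard choice.** -/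
theorem delStd (hq : q.Prime) (hqM : ¬ q ∣ M') (hA : A.LiesOverPrime q) (hζ : IsPrimitiveRoot ζ q) :
    Del (vC M' q A ζ) (rhoC M' q A ζ) (delC M' q ζ (a0C M' q)) (CT.theta (a0R M' q (kA A)))
      (ccC q A) :=
  del A ζ hq hqM hA hζ (rd_a0C A) (theta_a0R_ne_zero A hq hA)

/-! ## degrees -/

/-- the tower law for `finrankAlong`. -/
theorem finrankAlong_comp {K F₀ F₁ F₂ : Type*} [Field K] [Field F₀] [Field F₁] [Field F₂]
    [Algebra K F₀] [Algebra K F₁] [Algebra K F₂] (f : F₀ →ₐ[K] F₁) (g : F₁ →ₐ[K] F₂) :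
    finrankAlong K (g.comp f) = finrankAlong K f * finrankAlong K g := by
  let i1 : Algebra F₀ F₁ := f.toRingHom.toAlgebra
  let i2 : Algebra F₁ F₂ := g.toRingHom.toAlgebra
  let i3 : Algebra F₀ F₂ := (g.comp f).toRingHom.toAlgebra
  have : IsScalarTower F₀ F₁ F₂ := IsScalarTower.of_algebraMap_eq fun x => rfl
  exact (Module.finrank_mul_finrank F₀ F₁ F₂).symm

theorem finrankAlong_a1 (hq : q.Prime) (hqM : ¬ q ∣ M') :
    finrankAlong Qb (alp (M' * q) q) = q := finrank_alp M' q hq hqM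

theorem finrankAlong_b1 (hq : q.Prime) (hqM : ¬ q ∣ M') :
    finrankAlong Qb (bet (M' * q) q) = q := finrank_bet M' q hq hqM

theorem finrankAlong_al (hq : q.Prime) (hqM : ¬ q ∣ M') :
    finrankAlong Qb (al M' q) = q * (q + 1) := by
  rw [al, finrankAlong_comp, finrankAlong_a1 hq hqM, T1C.finrankAlong_alp M' q hq hqM, mul_comm]

theorem finrankAlong_ga (hq : q.Prime) (hqM : ¬ q ∣ M') :
    finrankAlong Qb (ga M' q) = q * (q + 1) := by
  rw [ga, finrankAlong_comp, finrankAlong_b1 hq hqM, Fermat.Agent.S18.finrankAlong_beta,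
    T1C.finrankAlong_alp M' q hq hqM, mul_comm]

omit [NeZero M'] in
theorem card_units (hq : q.Prime) : Fintype.card (ZMod q)ˣ = q - 1 := by
  have : Fact q.Prime := ⟨hq⟩
  have h := ZMod.card_units q
  convert h

end Fermat.Agent.CAR.FQ2C
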