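import Fermat.Agent.CAR.FQ2C.Fam

/-!
# CAR / FQ2C / Table : [FQ2-T] the table of `a1 = alp (M' * q) q`, `b1 = bet (M' * q) q`

`F1 = FN (M' * q)`, `r_F y = red y`, `r_V y = red (w_q y)`, `V = qExpand q`:

            a1 y        b1 y
    oo      r_F y       V (r_F y)
    md c    r_F y       r_V y
    zr      V (r_V y)   r_V y

both for reductions (`rd_*`, in `T1.Rd` and `GR.HasRed` language) and for valuations (`vC_*`, with
`v1 A := vOf A (eStd (M' * q))`, same value group `ΓU A`).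
-/

set_option autoImplicit false

open ModularCurve AlgebraicCurve

noncomputable section

namespace Fermat.Agent.CAR.FQ2C

open Fermat.Agent.GR Fermat.Agent.GAL Fermat.Agent.GAL.KL Fermat.Agent.GAL.KLC Fermat.Agent.S24
open Fermat.Agent.S28 Fermat.Agent.GR.HeckeField Fermat.Agent.TOR Fermat.Agent.TOR.GB
open Fermat.Agent.CAR.FQ2V Fermat.Agent.CAR.FQ2E Fermat.Agent.CAR.ON

variable {M' q : ℕ} [NeZero M'] [NeZero q] (A : ValuationSubring Qb) (ζ : Qbˣ)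

/-! ## the expansions -/

theorem hom_oo_a1 (y : FN (M' * q)) :
    (famC M' q ζ oo).hom (alp (M' * q) q y) = (y : LaurentSeries Qb) := by
  rw [famC_oo_hom, coe_heckeAlphaBar]

theorem hom_oo_b1 (y : FN (M' * q)) :
    (famC M' q ζ oo).hom (bet (M' * q) q y) = qExpand Qb q (y : LaurentSeries Qb) := by
  rw [famC_oo_hom, coe_heckeBetaBar]

theorem hom_md_a1 (c : (ZMod q)ˣ) (y : FN (M' * q)) :
    (famC M' q ζ (md c)).hom (alp (M' * q) q y) = (y : LaurentSeries Qb) := by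
  rw [famC_md_hom, eMidC_alp]

theorem hom_md_b1 (hq : q.Prime) (hqM : ¬ q ∣ M') (hζ : IsPrimitiveRoot ζ q) (c : (ZMod q)ˣ)
    (y : FN (M' * q)) :
    (famC M' q ζ (md c)).hom (bet (M' * q) q y)
      = twist (zpw q ζ c) ((wq M' q y : FN (M' * q)) : LaurentSeries Qb) := by
  rw [famC_md_hom, eMidC_bet hq hqM hζ]

theorem hom_zr_a1 (hq : q.Prime) (hqM : ¬ q ∣ M') (y : FN (M' * q)) :
    (famC M' q ζ zr).hom (alp (M' * q) q y)
      = qExpand Qb q ((wq M' q y : FN (M' * q)) : LaurentSeries Qb) := by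
  rw [famC_zr_hom, wqq_alp hq hqM, coe_heckeBetaBar]

theorem hom_zr_b1 (hq : q.Prime) (hqM : ¬ q ∣ M') (y : FN (M' * q)) :
    (famC M' q ζ zr).hom (bet (M' * q) q y) = ((wq M' q y : FN (M' * q)) : LaurentSeries Qb) := by
  rw [famC_zr_hom, wqq_bet hq hqM, coe_heckeAlphaBar]

/-! ## reductions -/

section Rd

variable {y : FN (M' * q)} {φ : LaurentSeries (kA A)}

theorem rd_oo_a1_iff : T1.Rd (rhoC M' q A ζ oo) (alp (M' * q) q y) φ ↔ T1.Rd (rho A (M' * q)) y φ := by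
  rw [rd_iff, hom_oo_a1, T1C.rd_iff]

theorem rd_md_a1_iff (c : (ZMod q)ˣ) :
    T1.Rd (rhoC M' q A ζ (md c)) (alp (M' * q) q y) φ ↔ T1.Rd (rho A (M' * q)) y φ := by
  rw [rd_iff, hom_md_a1, T1C.rd_iff]

theorem rd_zr_b1_iff (hq : q.Prime) (hqM : ¬ q ∣ M') :
    T1.Rd (rhoC M' q A ζ zr) (bet (M' * q) q y) φ ↔ T1.Rd (rho A (M' * q)) (wq M' q y) φ := by
  rw [rd_iff, hom_zr_b1 ζ hq hqM, T1C.rd_iff]

theorem rd_oo_a1 (h : T1.Rd (rho A (M' * q)) y φ) :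
    T1.Rd (rhoC M' q A ζ oo) (alp (M' * q) q y) φ := (rd_oo_a1_iff A ζ).2 h

theorem rd_md_a1 (c : (ZMod q)ˣ) (h : T1.Rd (rho A (M' * q)) y φ) :
    T1.Rd (rhoC M' q A ζ (md c)) (alp (M' * q) q y) φ := (rd_md_a1_iff A ζ c).2 h

theorem rd_zr_a1 (hq : q.Prime) (hqM : ¬ q ∣ M') (h : T1.Rd (rho A (M' * q)) (wq M' q y) φ) :
    T1.Rd (rhoC M' q A ζ zr) (alp (M' * q) q y) (qExpand (kA A) q φ) := by
  rw [rd_iff, hom_zr_a1 ζ hq hqM]
  exact hasRed_qExpand' q ((T1C.rd_iff _ A).1 h)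

theorem rd_oo_b1 (h : T1.Rd (rho A (M' * q)) y φ) :
    T1.Rd (rhoC M' q A ζ oo) (bet (M' * q) q y) (qExpand (kA A) q φ) := by
  rw [rd_iff, hom_oo_b1]
  exact hasRed_qExpand' q ((T1C.rd_iff _ A).1 h)

theorem rd_md_b1 (hq : q.Prime) (hqM : ¬ q ∣ M') (hA : A.LiesOverPrime q)
    (hζ : IsPrimitiveRoot ζ q) (c : (ZMod q)ˣ) (h : T1.Rd (rho A (M' * q)) (wq M' q y) φ) :
    T1.Rd (rhoC M' q A ζ (md c)) (bet (M' * q) q y) φ := by
  rw [rd_iff, hom_md_b1 ζ hq hqM hζ]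
  exact hasRed_twist hq hA _ (zpw_pow hζ c) ((T1C.rd_iff _ A).1 h)

theorem rd_zr_b1 (hq : q.Prime) (hqM : ¬ q ∣ M') (h : T1.Rd (rho A (M' * q)) (wq M' q y) φ) :
    T1.Rd (rhoC M' q A ζ zr) (bet (M' * q) q y) φ := (rd_zr_b1_iff A ζ hq hqM).2 h

/-- converse at `md c`. -/
theorem rd_md_b1_iff (hq : q.Prime) (hqM : ¬ q ∣ M') (hA : A.LiesOverPrime q)
    (hζ : IsPrimitiveRoot ζ q) (c : (ZMod q)ˣ) :
    T1.Rd (rhoC M' q A ζ (md c)) (bet (M' * q) q y) φ ↔ T1.Rd (rho A (M' * q)) (wq M' q y) φ := by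
  refine ⟨fun h => ?_, rd_md_b1 A ζ hq hqM hA hζ c⟩
  rw [rd_iff, hom_md_b1 ζ hq hqM hζ] at h
  rw [T1C.rd_iff]
  have h1 := hasRed_twist hq hA (zpw q ζ c)⁻¹ (by rw [inv_pow, zpw_pow hζ c, inv_one]) h
  have h2 : twist (zpw q ζ c)⁻¹ (twist (zpw q ζ c)
      ((wq M' q y : FN (M' * q)) : LaurentSeries Qb)) = ((wq M' q y : FN (M' * q)) : LaurentSeries Qb) := by
    ext n
    rw [twist_coeff, twist_coeff, ← mul_assoc, ← Units.val_mul, ← mul_zpow, inv_mul_cancel, one_zpow,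
      Units.val_one, one_mul]
  rwa [h2] at h1

end Rd

/-! ## valuations -/

/-- the Gauss valuation of level `M' q` with value group `ΓU A`. -/
def v1 (M' q : ℕ) (A : ValuationSubring Qb) : Valuation (FN (M' * q)) (ΓU A) := vOf A (eStd (M' * q))

theorem v1_le_one_iff (y : FN (M' * q)) : v1 M' q A y ≤ 1 ↔ vG A (M' * q) y ≤ 1 :=
  vOf_eStd_le_one_iff A (M' * q) y

theorem v1_lt_one_iff (y : FN (M' * q)) : v1 M' q A y < 1 ↔ vG A (M' * q) y < 1 :=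
  vOf_eStd_lt_one_iff A (M' * q) y

theorem vC_oo_a1 (y : FN (M' * q)) : vC M' q A ζ oo (alp (M' * q) q y) = v1 M' q A y :=
  vOf_eq_of_hom_eq A _ _ (hom_oo_a1 ζ y)

theorem vC_md_a1 (c : (ZMod q)ˣ) (y : FN (M' * q)) :
    vC M' q A ζ (md c) (alp (M' * q) q y) = v1 M' q A y :=
  vOf_eq_of_hom_eq A _ _ (hom_md_a1 ζ c y)

theorem vC_zr_b1 (hq : q.Prime) (hqM : ¬ q ∣ M') (y : FN (M' * q)) :
    vC M' q A ζ zr (bet (M' * q) q y) = v1 M' q A (wq M' q y) :=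
  vOf_eq_of_hom_eq A _ _ (hom_zr_b1 ζ hq hqM y)

theorem vC_oo_b1 (y : FN (M' * q)) : vC M' q A ζ oo (bet (M' * q) q y) = v1 M' q A y := by
  refine vOf_eq_of_hasRed A (eStd (M' * q)) (famC M' q ζ oo) (bet (M' * q) q).toRingHom
    (fun a => (bet (M' * q) q).commutes a) (fun z φ hφ h => ?_) y
  refine ⟨qExpand (kA A) q φ, (_root_.map_ne_zero _).2 hφ, ?_⟩
  show HasRed A ((famC M' q ζ oo).hom (bet (M' * q) q z)) _
  rw [hom_oo_b1]
  exact hasRed_qExpand' q h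

theorem vC_zr_a1 (hq : q.Prime) (hqM : ¬ q ∣ M') (y : FN (M' * q)) :
    vC M' q A ζ zr (alp (M' * q) q y) = v1 M' q A (wq M' q y) := by
  rw [vC_zr, wqq_alp hq hqM, vC_oo_b1]

theorem vC_md_b1 (hq : q.Prime) (hqM : ¬ q ∣ M') (hA : A.LiesOverPrime q)
    (hζ : IsPrimitiveRoot ζ q) (c : (ZMod q)ˣ) (y : FN (M' * q)) :
    vC M' q A ζ (md c) (bet (M' * q) q y) = v1 M' q A (wq M' q y) := by
  have h := vOf_eq_of_hasRed A (eStd (M' * q)) (famC M' q ζ (md c))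
    ((bet (M' * q) q).toRingHom.comp (wq M' q : FN (M' * q) →+* FN (M' * q)))
    (fun a => by
      show bet (M' * q) q (wq M' q (algebraMap Qb (FN (M' * q)) a)) = _
      rw [AlgEquiv.commutes, AlgHom.commutes])
    (fun z φ hφ h => by
      refine ⟨φ, hφ, ?_⟩
      show HasRed A ((famC M' q ζ (md c)).hom (bet (M' * q) q (wq M' q z))) _
      rw [hom_md_b1 ζ hq hqM hζ, wq_wq hq hqM]
      exact hasRed_twist hq hA _ (zpw_pow hζ c) h) (wq M' q y)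
  have h2 : ((bet (M' * q) q).toRingHom.comp (wq M' q : FN (M' * q) →+* FN (M' * q))) (wq M' q y)
      = bet (M' * q) q y := by
    show bet (M' * q) q (wq M' q (wq M' q y)) = _
    rw [wq_wq hq hqM]
  rw [h2] at h
  exact h

end Fermat.Agent.CAR.FQ2C
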